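/-
[FROB-B] (B3): pure algebra (helper11).

A group `G` acting on a `k`-vector space `U` such that every `g` satisfies
`ρ g + χ g • ρ g⁻¹ = t g • 1` for a character `χ : G →* kˣ` and scalars `t g`.
If the action is irreducible and `k` is algebraically closed then `dim U ≤ 2`, and
there is always a 2-dimensional matrix representation with characteristic polynomials
`X² - t g X + χ g`.
-/
import Mathlib

set_option autoImplicit false

namespace Fermat.Agent.Lib.FrobB.Quad

open Polynomial

section Rel

variable {k : Type*} [Field k] {G : Type*} [Group G] {A : Type*} [Ring A] [Algebra k A]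

/-- The quadratic relation with character `χ` and "trace" `t`. -/
def Rel (ρ : G →* A) (χ : G →* kˣ) (t : G → k) : Prop :=
  ∀ g, ρ g + (χ g : k) • ρ g⁻¹ = t g • (1 : A)

variable {ρ : G →* A} {χ : G →* kˣ} {t : G → k}

theorem mul_inv_eq_one (ρ : G →* A) (g : G) : ρ g * ρ g⁻¹ = 1 := by
  rw [← map_mul, mul_inv_cancel, map_one]

theorem inv_mul_eq_one (ρ : G →* A) (g : G) : ρ g⁻¹ * ρ g = 1 := by
  rw [← map_mul, inv_mul_cancel, map_one]

/-- `χ g • ρ g⁻¹ = t g - ρ g`. -/
theorem Rel.smul_inv (h : Rel ρ χ t) (g : G) :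
    (χ g : k) • ρ g⁻¹ = t g • (1 : A) - ρ g := by
  rw [← h g, add_sub_cancel_left]

/-- The quadratic equation. -/
theorem Rel.quad (h : Rel ρ χ t) (g : G) :
    ρ g * ρ g = t g • ρ g - (χ g : k) • (1 : A) := by
  have h1 := congrArg (fun x => ρ g * x) (h g)
  simp only [mul_add, mul_smul_comm, mul_inv_eq_one, mul_one] at h1
  rw [← h1, add_sub_cancel_right]

/-- The pair relation `gh + hg = t(h) g + t(g) h + (t(gh) - t(g)t(h))`. -/
theorem Rel.pair (h : Rel ρ χ t) (g g' : G) :
    ρ g * ρ g' + ρ g' * ρ g =
      t g' • ρ g + t g • ρ g' + (t (g * g') - t g * t g') • (1 : A) := by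
  have h1 := h (g * g')
  have h2 : ((χ (g * g') : kˣ) : k) • ρ (g * g')⁻¹ =
      ((χ g' : k) • ρ g'⁻¹) * ((χ g : k) • ρ g⁻¹) := by
    rw [mul_inv_rev, map_mul ρ, map_mul χ, Units.val_mul, smul_mul_smul_comm, mul_comm (χ g : k)]
  rw [h2, h.smul_inv g, h.smul_inv g', map_mul] at h1
  have h3 : (t g' • (1 : A) - ρ g') * (t g • (1 : A) - ρ g) =
      (t g * t g') • (1 : A) - t g' • ρ g - t g • ρ g' + ρ g' * ρ g := by
    simp only [sub_mul, mul_sub, smul_mul_assoc, one_mul, mul_smul_comm, mul_one, smul_smul,
      smul_sub]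
    abel
  rw [h3] at h1
  rw [sub_smul, ← h1]
  abel

/-- **Power trick.** If `f + c f⁻¹` is a scalar then so is `f^j + c^j f⁻ʲ`. -/
theorem exists_pow_add_pow (f f' : A) (hff' : f * f' = 1) (hf'f : f' * f = 1) (c a : k)
    (h : f + c • f' = a • (1 : A)) :
    ∀ j : ℕ, ∃ b : k, f ^ j + c ^ j • f' ^ j = b • (1 : A) := by
  have hcomm : Commute f f' := by rw [Commute, SemiconjBy, hff', hf'f]
  intro j
  induction j using Nat.twoStepInduction with
  | zero => exact ⟨2, by simp [two_smul]⟩
  | one => exact ⟨a, by simpa using h⟩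
  | more j ih0 ih1 =>
    obtain ⟨b0, hb0⟩ := ih0
    obtain ⟨b1, hb1⟩ := ih1
    refine ⟨a * b1 - c * b0, ?_⟩
    have e1 : f * f' ^ (j + 1) = f' ^ j := by
      rw [pow_succ', ← mul_assoc, hff', one_mul]
    have e2 : f' * f ^ (j + 1) = f ^ j := by
      rw [pow_succ', ← mul_assoc, hf'f, one_mul]
    have key : (f + c • f') * (f ^ (j + 1) + c ^ (j + 1) • f' ^ (j + 1)) =
        (f ^ (j + 2) + c ^ (j + 2) • f' ^ (j + 2)) + c • (f ^ j + c ^ j • f' ^ j) := by
      have e3 : f * f ^ (j + 1) = f ^ (j + 2) := (pow_succ' f (j + 1)).symm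
      have e4 : f' * f' ^ (j + 1) = f' ^ (j + 2) := (pow_succ' f' (j + 1)).symm
      simp only [add_mul, mul_add, smul_mul_assoc, mul_smul_comm, e1, e2, e3, e4, smul_add,
        smul_smul]
      have e5 : c ^ (j + 1) * c = c ^ (j + 2) := by ring
      have e6 : c * c ^ j = c ^ (j + 1) := by ring
      simp only [e5, e6]
      abel
    rw [h, hb1, hb0] at key
    have key2 : f ^ (j + 2) + c ^ (j + 2) • f' ^ (j + 2) =
        (a • (1 : A)) * (b1 • (1 : A)) - c • b0 • (1 : A) := by
      rw [key, add_sub_cancel_right]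
    rw [key2, smul_mul_smul_comm, mul_one, smul_smul, sub_smul]

end Rel

section Irr

variable {k : Type*} [Field k] {G : Type*} [Group G] {U : Type*} [AddCommGroup U] [Module k U]

/-- Irreducibility of a representation on `U`. -/
def Irr (ρ : G →* Module.End k U) : Prop :=
  ∀ M : Submodule k U, (∀ g, ∀ x ∈ M, ρ g x ∈ M) → M = ⊥ ∨ M = ⊤

variable {ρ : G →* Module.End k U} {χ : G →* kˣ} {t : G → k}

/-- The orbit of a nonzero vector spans an irreducible representation. -/
theorem Irr.span_orbit (hirr : Irr ρ) {u : U} (hu : u ≠ 0) :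
    Submodule.span k (Set.range fun g => ρ g u) = ⊤ := by
  have hinv : ∀ g, ∀ x ∈ Submodule.span k (Set.range fun g => ρ g u),
      ρ g x ∈ Submodule.span k (Set.range fun g => ρ g u) := by
    intro g x hx
    induction hx using Submodule.span_induction with
    | mem x hx =>
      obtain ⟨g', rfl⟩ := hx
      refine Submodule.subset_span ⟨g * g', ?_⟩
      simp [map_mul]
    | zero => simp
    | add x y _ _ hx hy => rw [map_add]; exact add_mem hx hy
    | smul c x _ hx => rw [map_smul]; exact Submodule.smul_mem _ c hx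
  rcases hirr (Submodule.span k (Set.range fun g => ρ g u)) hinv with h | h
  · exfalso
    have : u ∈ Submodule.span k (Set.range fun g => ρ g u) :=
      Submodule.subset_span ⟨1, by simp⟩
    rw [h, Submodule.mem_bot] at this
    exact hu this
  · exact h

/-- **Eigenvector lemma.** If `u` is an eigenvector of `ρ g` for `λ`, then `ρ g - (t g - λ)` maps
everything into the line `k u`. -/
theorem Rel.eigen (h : Rel ρ χ t) (hirr : Irr ρ) (g : G) (l : k) {u : U} (hu : u ≠ 0)
    (hgu : ρ g u = l • u) (v : U) : ρ g v - (t g - l) • v ∈ Submodule.span k {u} := by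
  have hv : v ∈ Submodule.span k (Set.range fun g' => ρ g' u) := by
    rw [hirr.span_orbit hu]; trivial
  induction hv using Submodule.span_induction with
  | mem x hx =>
    obtain ⟨g', rfl⟩ := hx
    have h1 := congrArg (fun f : Module.End k U => f u) (h.pair g g')
    simp only [LinearMap.add_apply, Module.End.mul_apply, LinearMap.smul_apply,
      Module.End.one_apply, hgu, map_smul] at h1
    have h2 : ρ g (ρ g' u) - (t g - l) • ρ g' u = (t g' * l + (t (g * g') - t g * t g')) • u := by
      rw [eq_sub_of_add_eq h1]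
      module
    rw [h2]
    exact Submodule.smul_mem _ _ (Submodule.mem_span_singleton_self u)
  | zero => simp
  | add x y _ _ hx hy =>
    have : ρ g (x + y) - (t g - l) • (x + y) =
        (ρ g x - (t g - l) • x) + (ρ g y - (t g - l) • y) := by
      rw [map_add, smul_add]; abel
    rw [this]
    exact add_mem hx hy
  | smul c x _ hx =>
    have : ρ g (c • x) - (t g - l) • (c • x) = c • (ρ g x - (t g - l) • x) := by
      rw [map_smul, smul_sub, smul_comm]
    rw [this]
    exact Submodule.smul_mem _ c hx

/-- If every `ρ g` is a scalar, an irreducible representation has dimension at most one. -/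
theorem Irr.finrank_le_one_of_scalar (hirr : Irr ρ) (hs : ∀ g, ∃ c : k, ρ g = c • 1) :
    Module.finrank k U ≤ 1 := by
  by_cases hU : ∃ u : U, u ≠ 0
  · obtain ⟨u, hu⟩ := hU
    have hinv : ∀ g, ∀ x ∈ Submodule.span k {u}, ρ g x ∈ Submodule.span k {u} := by
      intro g x hx
      obtain ⟨c, hc⟩ := hs g
      rw [hc]
      exact Submodule.smul_mem _ c hx
    have htop : Submodule.span k {u} = ⊤ := by
      rcases hirr (Submodule.span k {u}) hinv with h | h
      · exfalso
        have := Submodule.mem_span_singleton_self (R := k) u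
        rw [h, Submodule.mem_bot] at this
        exact hu this
      · exact h
    rw [← finrank_top k U, ← htop]
    exact (finrank_span_le_card ({u} : Set U)).trans (by simp)
  · push Not at hU
    have : Subsingleton U := ⟨fun a b => by rw [hU a, hU b]⟩
    rw [Module.finrank_zero_of_subsingleton]
    exact Nat.zero_le 1

/-- **Dimension bound.** -/
theorem Rel.finrank_le_two [IsAlgClosed k] [FiniteDimensional k U] (h : Rel ρ χ t)
    (hirr : Irr ρ) : Module.finrank k U ≤ 2 := by
  by_cases hs : ∀ g, ∃ c : k, ρ g = c • 1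
  · exact (hirr.finrank_le_one_of_scalar hs).trans (by norm_num)
  push Not at hs
  obtain ⟨g, hg⟩ := hs
  have hU : Nontrivial U := by
    by_contra hU
    rw [not_nontrivial_iff_subsingleton] at hU
    exact hg 0 (Subsingleton.elim _ _)
  obtain ⟨l, hl⟩ := Module.End.exists_eigenvalue (ρ g)
  obtain ⟨u, hu⟩ := hl.exists_hasEigenvector
  have hu0 : u ≠ 0 := hu.2
  have hgu : ρ g u = l • u := hu.apply_eq_smul
  set m := t g - l with hm
  have E1 : ∀ v, ρ g v - m • v ∈ Submodule.span k {u} := h.eigen hirr g l hu0 hgu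
  -- `l * m = χ g`
  have hlm : l * m = (χ g : k) := by
    have h1 := congrArg (fun f : Module.End k U => f u) (h.quad g)
    simp only [Module.End.mul_apply, LinearMap.sub_apply, LinearMap.smul_apply,
      Module.End.one_apply, hgu, map_smul] at h1
    have h2 : (l * l - t g * l + (χ g : k)) • u = 0 := by
      rw [add_smul, sub_smul, mul_smul, mul_smul, h1]
      abel
    rcases smul_eq_zero.mp h2 with h3 | h3
    · rw [hm]; linear_combination -h3
    · exact absurd h3 hu0
  -- finrank bound from a spanning pair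
  have hpair : ∀ a b : U, (∀ v, v ∈ Submodule.span k {a, b}) → Module.finrank k U ≤ 2 := by
    intro a b hab
    have htop : Submodule.span k ({a, b} : Set U) = ⊤ := by
      rw [eq_top_iff]; intro v _; exact hab v
    classical
    have hcoe : (({a, b} : Finset U) : Set U) = {a, b} := by
      rw [Finset.coe_insert, Finset.coe_singleton]
    rw [← finrank_top k U, ← htop, ← hcoe]
    exact (finrank_span_finset_le_card ({a, b} : Finset U)).trans Finset.card_le_two
  by_cases hlm' : l = m
  · -- the nilpotent case
    have hn0 : ∃ v0, ρ g v0 - l • v0 ≠ 0 := by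
      by_contra hcon
      push Not at hcon
      refine hg l (LinearMap.ext fun v => ?_)
      rw [LinearMap.smul_apply, Module.End.one_apply]
      exact sub_eq_zero.mp (hcon v)
    obtain ⟨v0, hv0⟩ := hn0
    have E1' : ∀ v, ρ g v - l • v ∈ Submodule.span k {u} := by
      intro v; have := E1 v; rwa [← hlm'] at this
    have htg : t g = l + l := by rw [hm] at hlm'; linear_combination -hlm'
    -- the twisted commutation relation
    have hrel : ∀ g' v, (ρ g (ρ g' v) - l • ρ g' v) + ρ g' (ρ g v - l • v) =
        t g' • (ρ g v - l • v) + (t g' * l + (t (g * g') - t g * t g')) • v := by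
      intro g' v
      have h1 := congrArg (fun f : Module.End k U => f v) (h.pair g g')
      simp only [LinearMap.add_apply, Module.End.mul_apply, LinearMap.smul_apply,
        Module.End.one_apply] at h1
      rw [map_sub, map_smul]
      have h2 : ρ g (ρ g' v) = t g' • ρ g v + t g • ρ g' v + (t (g * g') - t g * t g') • v
          - ρ g' (ρ g v) := eq_sub_of_add_eq h1
      rw [h2, htg]
      module
    by_cases hc : ∃ g', t g' * l + (t (g * g') - t g * t g') ≠ 0
    · obtain ⟨g', hg'⟩ := hc
      have hker : ∀ w, ρ g w - l • w = 0 → w ∈ Submodule.span k {u} := by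
        intro w hw
        have h1 := hrel g' w
        rw [hw, map_zero, smul_zero, add_zero, zero_add] at h1
        have h2 := E1' (ρ g' w)
        rw [h1] at h2
        have h3 := Submodule.smul_mem _ (t g' * l + (t (g * g') - t g * t g'))⁻¹ h2
        rwa [smul_smul, inv_mul_cancel₀ hg', one_smul] at h3
      obtain ⟨c0, hc0⟩ := Submodule.mem_span_singleton.mp (E1' v0)
      have hc00 : c0 ≠ 0 := by
        rintro rfl
        rw [zero_smul] at hc0
        exact hv0 hc0.symm
      refine hpair u v0 (fun v => ?_)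
      obtain ⟨a, ha⟩ := Submodule.mem_span_singleton.mp (E1' v)
      have h1 : ρ g (v - (a / c0) • v0) - l • (v - (a / c0) • v0) = 0 := by
        have : ρ g (v - (a / c0) • v0) - l • (v - (a / c0) • v0) =
            (ρ g v - l • v) - (a / c0) • (ρ g v0 - l • v0) := by
          rw [map_sub, map_smul]; module
        rw [this, ← ha, ← hc0, smul_smul, div_mul_cancel₀ a hc00, sub_self]
      obtain ⟨b, hb⟩ := Submodule.mem_span_singleton.mp (hker _ h1)
      have h2 : v = b • u + (a / c0) • v0 := by rw [hb]; abel
      rw [h2, Submodule.mem_span_pair]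
      exact ⟨b, a / c0, rfl⟩
    · push Not at hc
      exfalso
      -- the kernel of `ρ g - l` is invariant
      have hinv : ∀ g', ∀ x ∈ LinearMap.ker (ρ g - l • (1 : Module.End k U)),
          ρ g' x ∈ LinearMap.ker (ρ g - l • (1 : Module.End k U)) := by
        intro g' x hx
        rw [LinearMap.mem_ker, LinearMap.sub_apply, LinearMap.smul_apply,
          Module.End.one_apply] at hx ⊢
        have h1 := hrel g' x
        rw [hx, map_zero, smul_zero, add_zero, zero_add, hc g', zero_smul] at h1
        exact h1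
      rcases hirr _ hinv with h1 | h1
      · have : u ∈ LinearMap.ker (ρ g - l • (1 : Module.End k U)) := by
          rw [LinearMap.mem_ker, LinearMap.sub_apply, LinearMap.smul_apply,
            Module.End.one_apply, hgu, sub_self]
        rw [h1, Submodule.mem_bot] at this
        exact hu0 this
      · have : v0 ∈ LinearMap.ker (ρ g - l • (1 : Module.End k U)) := by
          rw [h1]; trivial
        rw [LinearMap.mem_ker, LinearMap.sub_apply, LinearMap.smul_apply,
          Module.End.one_apply] at this
        exact hv0 this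
  · -- two distinct eigenvalues
    have hn0 : ∃ w, ρ g w - l • w ≠ 0 := by
      by_contra hcon
      push Not at hcon
      refine hg l (LinearMap.ext fun v => ?_)
      rw [LinearMap.smul_apply, Module.End.one_apply]
      exact sub_eq_zero.mp (hcon v)
    obtain ⟨w, hw⟩ := hn0
    set u' := ρ g w - l • w with hu'
    have hgu' : ρ g u' = m • u' := by
      have h1 := congrArg (fun f : Module.End k U => f w) (h.quad g)
      simp only [Module.End.mul_apply, LinearMap.sub_apply, LinearMap.smul_apply,
        Module.End.one_apply] at h1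
      rw [hu', map_sub, map_smul, h1, ← hlm, hm]
      module
    have E2 : ∀ v, ρ g v - l • v ∈ Submodule.span k {u'} := by
      intro v
      have := h.eigen hirr g m hw hgu' v
      have e : t g - m = l := by rw [hm]; ring
      rwa [e] at this
    refine hpair u u' (fun v => ?_)
    obtain ⟨a, ha⟩ := Submodule.mem_span_singleton.mp (E1 v)
    obtain ⟨b, hb⟩ := Submodule.mem_span_singleton.mp (E2 v)
    have hlm0 : l - m ≠ 0 := sub_ne_zero.mpr hlm'
    have h2 : v = (a / (l - m)) • u + (-b / (l - m)) • u' := by
      have h3 : (l - m) • v = a • u - b • u' := by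
        rw [ha, hb]; module
      have h4 : v = (l - m)⁻¹ • ((l - m) • v) := by
        rw [smul_smul, inv_mul_cancel₀ hlm0, one_smul]
      rw [h4, h3, smul_sub, smul_smul, smul_smul, div_eq_inv_mul, div_eq_inv_mul]
      module
    rw [h2, Submodule.mem_span_pair]
    exact ⟨_, _, rfl⟩

end Irr

section Mat

variable {k : Type*} [Field k] {G : Type*} [Group G]

/-- Cayley–Hamilton for `2 × 2` matrices. -/
theorem cayley_two (N : Matrix (Fin 2) (Fin 2) k) :
    N * N = N.trace • N - N.det • (1 : Matrix (Fin 2) (Fin 2) k) := by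
  ext i j
  fin_cases i <;> fin_cases j <;>
    simp [Matrix.mul_apply, Fin.sum_univ_two, Matrix.trace_fin_two, Matrix.det_fin_two] <;> ring

theorem smul_one_injective {a b : k}
    (h : a • (1 : Matrix (Fin 2) (Fin 2) k) = b • (1 : Matrix (Fin 2) (Fin 2) k)) : a = b := by
  have := congrFun (congrFun h 0) 0
  simpa using this

/-- In a two-dimensional matrix representation satisfying the relation and containing a
non-scalar element, all characteristic polynomials are `X² - t g X + χ g`. -/
theorem charpoly_of_rel (M : G →* Matrix (Fin 2) (Fin 2) k) (χ : G →* kˣ) (t : G → k)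
    (h : Rel M χ t) (hns : ∃ g, ∀ c : k, M g ≠ c • (1 : Matrix (Fin 2) (Fin 2) k)) (g : G) :
    (M g).charpoly = X ^ 2 - C (t g) * X + C ((χ g : k)) := by
  rw [Matrix.charpoly_fin_two]
  have hq := h.quad g
  have hc := cayley_two (M g)
  have key : ((M g).trace - t g) • M g =
      ((M g).det - (χ g : k)) • (1 : Matrix (Fin 2) (Fin 2) k) := by
    have : (M g).trace • M g - (M g).det • (1 : Matrix (Fin 2) (Fin 2) k) =
        t g • M g - (χ g : k) • (1 : Matrix (Fin 2) (Fin 2) k) := by rw [← hc, ← hq]
    rw [sub_smul, sub_smul]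
    exact sub_eq_sub_iff_sub_eq_sub.mp this
  by_cases hsc : ∃ c : k, M g = c • (1 : Matrix (Fin 2) (Fin 2) k)
  · obtain ⟨c, hc'⟩ := hsc
    obtain ⟨g1, hg1⟩ := hns
    have hp := h.pair g g1
    rw [hc'] at hp
    simp only [smul_mul_assoc, one_mul, mul_smul_comm, mul_one] at hp
    have hp2 : (c + c - t g) • M g1 =
        (t g1 * c + (t (g * g1) - t g * t g1)) • (1 : Matrix (Fin 2) (Fin 2) k) := by
      rw [sub_smul, add_smul, add_smul, mul_smul, hp]
      abel
    have htg : t g = c + c := by
      by_contra hne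
      have hne' : c + c - t g ≠ 0 := fun h0 => hne (by linear_combination -h0)
      refine hg1 ((c + c - t g)⁻¹ * (t g1 * c + (t (g * g1) - t g * t g1))) ?_
      have := congrArg (fun x => (c + c - t g)⁻¹ • x) hp2
      simp only [smul_smul, inv_mul_cancel₀ hne', one_smul] at this
      exact this
    have hχ : (χ g : k) = c * c := by
      rw [hc'] at hq
      simp only [mul_smul_comm, mul_one, smul_smul] at hq
      rw [← sub_smul] at hq
      have := smul_one_injective hq
      rw [htg] at this
      linear_combination this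
    have htr : (M g).trace = c + c := by
      rw [hc', Matrix.trace_fin_two]; simp
    have hdet : (M g).det = c * c := by
      rw [hc', Matrix.det_fin_two]; simp
    rw [htr, hdet, htg, hχ]
  · have htr : (M g).trace = t g := by
      by_contra hne
      have hne' : (M g).trace - t g ≠ 0 := sub_ne_zero.mpr hne
      refine hsc ⟨((M g).trace - t g)⁻¹ * ((M g).det - (χ g : k)), ?_⟩
      have := congrArg (fun x => ((M g).trace - t g)⁻¹ • x) key
      simp only [smul_smul, inv_mul_cancel₀ hne', one_smul] at this
      exact this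
    have hdet : (M g).det = (χ g : k) := by
      rw [htr, sub_self, zero_smul] at key
      have h0 : ((M g).det - (χ g : k)) • (1 : Matrix (Fin 2) (Fin 2) k) =
          (0 : k) • (1 : Matrix (Fin 2) (Fin 2) k) := by rw [← key, zero_smul]
      exact sub_eq_zero.mp (smul_one_injective h0)
    rw [htr, hdet]

/-- The diagonal representation `ψ ⊕ χ ψ⁻¹`. -/
noncomputable def diagRep (ψ χ : G →* kˣ) : G →* Matrix (Fin 2) (Fin 2) k where
  toFun g := Matrix.diagonal ![(ψ g : k), (χ g : k) * ((ψ g)⁻¹ : kˣ)]
  map_one' := by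
    ext i j
    fin_cases i <;> fin_cases j <;> simp
  map_mul' g g' := by
    rw [Matrix.diagonal_mul_diagonal]
    congr 1
    ext i
    fin_cases i
    · simp
    · simp only [map_mul, Units.val_mul, mul_inv_rev, Fin.mk_one, Fin.isValue,
        Matrix.cons_val_one, Matrix.cons_val_fin_one]
      ring

theorem diagRep_charpoly (ψ χ : G →* kˣ) (t : G → k)
    (h : ∀ g, (ψ g : k) + (χ g : k) * ((ψ g)⁻¹ : kˣ) = t g) (g : G) :
    (diagRep ψ χ g).charpoly = X ^ 2 - C (t g) * X + C ((χ g : k)) := by
  rw [Matrix.charpoly_fin_two]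
  have htr : (diagRep ψ χ g).trace = t g := by
    rw [Matrix.trace_fin_two, ← h g]; simp [diagRep]
  have hdet : (diagRep ψ χ g).det = (χ g : k) := by
    rw [Matrix.det_fin_two]
    simp only [diagRep, MonoidHom.coe_mk, OneHom.coe_mk, Matrix.diagonal_apply_eq,
      Matrix.cons_val_zero, Matrix.cons_val_one, Matrix.cons_val_fin_one, ne_eq, zero_ne_one,
      not_false_eq_true, Matrix.diagonal_apply_ne, one_ne_zero, mul_zero, sub_zero]
    rw [mul_left_comm, Units.mul_inv, mul_one]
  rw [htr, hdet]

theorem diagRep_eq_one (ψ χ : G →* kˣ) (g : G) (h1 : ψ g = 1) (h2 : χ g = 1) :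
    diagRep ψ χ g = 1 := by
  ext i j
  fin_cases i <;> fin_cases j <;> simp [diagRep, h1, h2]

end Mat

section Main

variable {k : Type*} [Field k] {G : Type*} [Group G] {W : Type*} [AddCommGroup W] [Module k W]

/-- Restriction of a representation to an invariant submodule. -/
noncomputable def restr (ρ : G →* Module.End k W) (M : Submodule k W)
    (hM : ∀ g, ∀ x ∈ M, ρ g x ∈ M) : G →* Module.End k M where
  toFun g := (ρ g).restrict (hM g)
  map_one' := by
    ext x
    simp [LinearMap.restrict_apply]
  map_mul' g g' := by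
    ext x
    simp [LinearMap.restrict_apply]

theorem restr_apply (ρ : G →* Module.End k W) (M : Submodule k W)
    (hM : ∀ g, ∀ x ∈ M, ρ g x ∈ M) (g : G) (x : M) :
    ((restr ρ M hM g x : M) : W) = ρ g x := rfl

theorem Rel.restr {ρ : G →* Module.End k W} {χ : G →* kˣ} {t : G → k} (h : Rel ρ χ t)
    (M : Submodule k W) (hM : ∀ g, ∀ x ∈ M, ρ g x ∈ M) : Rel (restr ρ M hM) χ t := by
  intro g
  ext x
  have := congrArg (fun f : Module.End k W => f x) (h g)
  simpa [restr_apply] using this

theorem Rel.map {A B : Type*} [Ring A] [Algebra k A] [Ring B] [Algebra k B]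
    {ρ : G →* A} {χ : G →* kˣ} {t : G → k} (h : Rel ρ χ t) (e : A →ₐ[k] B) :
    Rel ((e : A →* B).comp ρ) χ t := by
  intro g
  have := congrArg e (h g)
  simpa using this

/-- Every endomorphism of a one-dimensional space is a scalar. -/
theorem exists_eq_smul_one_of_finrank_eq_one {U : Type*} [AddCommGroup U] [Module k U]
    (h1 : Module.finrank k U = 1) (f : Module.End k U) : ∃ c : k, f = c • 1 := by
  obtain ⟨v, hv, hv'⟩ := finrank_eq_one_iff'.mp h1
  obtain ⟨c, hc⟩ := hv' (f v)
  refine ⟨c, LinearMap.ext fun w => ?_⟩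
  obtain ⟨d, rfl⟩ := hv' w
  rw [map_smul, ← hc, LinearMap.smul_apply, Module.End.one_apply, smul_comm]

/-- **Theorem A.**  A nonzero finite-dimensional representation over an algebraically closed
field in which every `g` satisfies `ρ g + χ g • ρ g⁻¹ = t g` yields a two-dimensional matrix
representation whose characteristic polynomials are `X² - t g X + χ g`, and which is trivial
wherever `ρ` and `χ` are. -/
theorem exists_matrix_rep [IsAlgClosed k] [FiniteDimensional k W] [Nontrivial W]
    (ρ : G →* Module.End k W) (χ : G →* kˣ) (t : G → k) (h : Rel ρ χ t) :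
    ∃ M : G →* Matrix (Fin 2) (Fin 2) k, (∀ g, ρ g = 1 → χ g = 1 → M g = 1) ∧
      ∀ g, (M g).charpoly = X ^ 2 - C (t g) * X + C ((χ g : k)) := by
  classical
  -- a minimal nonzero invariant submodule
  let S : Set (Submodule k W) := {M | M ≠ ⊥ ∧ ∀ g, ∀ x ∈ M, ρ g x ∈ M}
  have hS : S.Nonempty := ⟨⊤, top_ne_bot, fun _ _ _ => trivial⟩
  have hwf : WellFounded ((· < ·) : Submodule k W → Submodule k W → Prop) := wellFounded_lt
  obtain ⟨M0, hM0S, hmin⟩ := hwf.has_min S hS
  obtain ⟨hM0, hinv⟩ := hM0S
  set ρ0 := restr ρ M0 hinv with hρ0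
  have hrel : Rel ρ0 χ t := h.restr M0 hinv
  have hnt : Nontrivial M0 := Submodule.nontrivial_iff_ne_bot.mpr hM0
  have hirr : Irr ρ0 := by
    intro M' hM'
    by_cases hb : M' = ⊥
    · exact Or.inl hb
    right
    have h1 : M'.map M0.subtype ∈ S := by
      refine ⟨?_, ?_⟩
      · intro h0
        apply hb
        rw [eq_bot_iff]
        intro y hy
        have : (y : W) ∈ M'.map M0.subtype := Submodule.mem_map.mpr ⟨y, hy, rfl⟩
        rw [h0, Submodule.mem_bot] at this
        rw [Submodule.mem_bot]
        exact Subtype.ext this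
      · intro g x hx
        obtain ⟨y, hy, rfl⟩ := Submodule.mem_map.mp hx
        exact Submodule.mem_map.mpr ⟨ρ0 g y, hM' g y hy, rfl⟩
    have h2 : M'.map M0.subtype ≤ M0 := by
      intro x hx
      obtain ⟨y, -, rfl⟩ := Submodule.mem_map.mp hx
      exact y.2
    have h3 : M'.map M0.subtype = M0 := by
      by_contra hne
      exact hmin _ h1 (lt_of_le_of_ne h2 hne)
    rw [eq_top_iff]
    intro x _
    have : (x : W) ∈ M'.map M0.subtype := by rw [h3]; exact x.2
    obtain ⟨y, hy, hyx⟩ := Submodule.mem_map.mp this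
    have : y = x := Subtype.ext hyx
    rwa [← this]
  have htriv : ∀ g, ρ g = 1 → ρ0 g = 1 := by
    intro g hg
    ext x
    rw [restr_apply, hg]
    rfl
  by_cases hs : ∀ g, ∃ c : k, ρ0 g = c • 1
  · -- one-dimensional case
    choose ψ0 hψ0 using hs
    have hinj : ∀ a b : k, a • (1 : Module.End k M0) = b • 1 → a = b := by
      intro a b hab
      obtain ⟨x, hx⟩ := exists_ne (0 : M0)
      have := congrArg (fun f : Module.End k M0 => f x) hab
      simp only [LinearMap.smul_apply, Module.End.one_apply] at this
      exact smul_left_injective k hx this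
    let ψ1 : G →* k :=
      { toFun := ψ0
        map_one' := by
          apply hinj
          rw [← hψ0 1, map_one, one_smul]
        map_mul' := fun g g' => by
          apply hinj
          rw [← hψ0 (g * g'), map_mul, hψ0 g, hψ0 g', smul_mul_smul_comm, mul_one] }
    let ψ : G →* kˣ := ψ1.toHomUnits
    have hψ : ∀ g, ((ψ g : kˣ) : k) = ψ0 g := fun g => rfl
    refine ⟨diagRep ψ χ, ?_, ?_⟩
    · intro g hg hχ
      refine diagRep_eq_one ψ χ g ?_ hχ
      apply Units.ext
      rw [hψ, Units.val_one]
      apply hinj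
      rw [← hψ0 g, htriv g hg, one_smul]
    · refine diagRep_charpoly ψ χ t ?_
      intro g
      have h1 := hrel g
      rw [hψ0 g, hψ0 g⁻¹, smul_smul, ← add_smul] at h1
      have h2 := hinj _ _ h1
      rw [← h2, hψ, ← hψ g⁻¹, map_inv]
  · -- two-dimensional case
    push Not at hs
    obtain ⟨g1, hg1⟩ := hs
    have hle : Module.finrank k M0 ≤ 2 := hrel.finrank_le_two hirr
    have hpos : 0 < Module.finrank k M0 := Module.finrank_pos
    have hne1 : Module.finrank k M0 ≠ 1 := by
      intro h1
      obtain ⟨c, hc⟩ := exists_eq_smul_one_of_finrank_eq_one h1 (ρ0 g1)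
      exact hg1 c hc
    have h2 : Module.finrank k M0 = 2 := by omega
    let b : Module.Basis (Fin 2) k M0 := Module.finBasisOfFinrankEq k M0 h2
    let e : Module.End k M0 ≃ₐ[k] Matrix (Fin 2) (Fin 2) k := LinearMap.toMatrixAlgEquiv b
    let eA : Module.End k M0 →ₐ[k] Matrix (Fin 2) (Fin 2) k := e.toAlgHom
    let Mrep : G →* Matrix (Fin 2) (Fin 2) k :=
      (eA : Module.End k M0 →* Matrix (Fin 2) (Fin 2) k).comp ρ0
    have hMrel : Rel Mrep χ t := hrel.map eA
    have hMapp : ∀ g, Mrep g = e (ρ0 g) := fun g => rfl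
    refine ⟨Mrep, ?_, ?_⟩
    · intro g hg _
      rw [hMapp, htriv g hg, map_one]
    · have hns : ∃ g, ∀ c : k, Mrep g ≠ c • (1 : Matrix (Fin 2) (Fin 2) k) := by
        refine ⟨g1, fun c hc => hg1 c (e.injective ?_)⟩
        rw [map_smul, map_one]
        exact hc
      exact charpoly_of_rel Mrep χ t hMrel hns

end Main

end Fermat.Agent.Lib.FrobB.Quad
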